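import Fermat.Agent.IrregularTotallyReal.Valuations

/-!
# Kummer's congruences at every prime

With `M = 4 (p - 1)`, the values without Euler factors at `k` and `k + M p ^ b s` are `p`-adically
close as soon as `b` is large against the power of `p` in `k n`, for every prime `p` and every even
`k` with `k n ≥ 4`, `k = 2` included.
-/

set_option autoImplicit false
set_option linter.unusedSectionVars false
set_option linter.style.haveILetI false

noncomputable section

open NumberField Module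
open UpperHalfPlane (qExpansion)
open scoped Classical MatrixGroups ModularForm

namespace FA.PadicZetaFull

open FA.PadicEulerFactor FA.IrregularTotallyReal FA.SiegelConstant FA.SerreDenominators FA.Eis

variable {p : ℕ} [Fact p.Prime]
variable {K : Type*} [Field K] [NumberField K] [IsTotallyReal K]

variable (p) in
/-- The period of the weights. -/
def period : ℕ := 4 * (p - 1)

theorem period_ne_zero : period p ≠ 0 :=
  mul_ne_zero (by norm_num) (by have := (Fact.out : p.Prime).two_le; omega)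

theorem even_period : Even (period p) := (show Even 4 by decide).mul_right _

/-- The power of `p` in `k n` is stable along the progression. -/
theorem factorization_shift {k E b s : ℕ} (hk : k * finrank ℚ K ≠ 0)
    (hE : (k * finrank ℚ K).factorization p < E) (hb : E ≤ b) :
    ((k + period p * (p ^ b * s)) * finrank ℚ K).factorization p < E := by
  have hp : p.Prime := Fact.out
  have hne : (k + period p * (p ^ b * s)) * finrank ℚ K ≠ 0 := by
    rw [add_mul]
    omega
  by_contra hh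
  have hd : p ^ E ∣ (k + period p * (p ^ b * s)) * finrank ℚ K :=
    (hp.pow_dvd_iff_le_factorization hne).2 (not_lt.1 hh)
  have h2 : p ^ E ∣ period p * (p ^ b * s) * finrank ℚ K :=
    (dvd_mul_of_dvd_right ((pow_dvd_pow p hb).mul_right s) _).mul_right _
  rw [add_mul, Nat.dvd_add_left h2, hp.pow_dvd_iff_le_factorization hk] at hd
  omega

/-- The `p`-part of the denominator of Siegel's value. -/
theorem den_siegelTotal_bound {k E : ℕ} (hk : Even k) (hk2 : 2 ≤ k) (hw : 4 ≤ k * finrank ℚ K)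
    (hE : (k * finrank ℚ K).factorization p < E) : ¬p ^ (E + 2) ∣ (siegelTotal K k).den := by
  obtain ⟨f, hf0, hf⟩ := exists_siegel_form (K := K) hk hk2 hw
  obtain ⟨r, hr, hd⟩ := den_dvd (hk.mul_right _) hw f fun m hm =>
    ⟨(pointSum K (k - 1) m : ℤ), by rw [hf m hm, Int.cast_natCast]⟩
  rw [hf0, Rat.cast_inj] at hr
  subst hr
  exact fun h => pow_not_dvd_staudtDen hE (h.trans hd)

/-- Removing the unit and the denominator. -/
theorem norm_le_of_scaled {u z : ℤ} {den A C E : ℕ} {x : ℚ} (hu : ¬(p : ℤ) ∣ u)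
    (hden : ¬p ^ (E + 2) ∣ den) (hA : C + (E + 2) ≤ A)
    (h : (u : ℚ) * (den : ℚ) * x = (p : ℚ) ^ A * z) : ‖(x : ℚ_[p])‖ ≤ (p : ℝ) ^ (-(C : ℤ)) := by
  have hp : p.Prime := Fact.out
  have hu1 : ‖((u : ℚ) : ℚ_[p])‖ = 1 := by
    rw [Rat.cast_intCast]
    exact le_antisymm (Padic.norm_int_le_one u)
      (not_lt.1 fun hh => hu (Padic.norm_intCast_lt_one_iff.1 hh))
  have hd1 : (p : ℝ) ^ (-((E + 2 : ℕ) : ℤ)) < ‖((den : ℚ) : ℚ_[p])‖ := by
    rw [Rat.cast_natCast, ← not_le,
      show ((den : ℕ) : ℚ_[p]) = ((den : ℤ) : ℚ_[p]) from (Int.cast_natCast _).symm,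
      Padic.norm_int_le_pow_iff_dvd]
    exact_mod_cast hden
  have hz : ‖((z : ℚ) : ℚ_[p])‖ ≤ 1 := by
    rw [Rat.cast_intCast]
    exact Padic.norm_int_le_one z
  by_contra hh
  have h' := congrArg (fun x : ℚ => ‖(x : ℚ_[p])‖) h
  simp only [Rat.cast_mul, Rat.cast_pow, norm_mul, hu1, one_mul, Rat.cast_natCast,
    Padic.norm_p_pow] at h'
  have h1 := mul_lt_mul'' hd1 (not_le.1 hh) (zpow_nonneg (Nat.cast_nonneg _) _)
    (zpow_nonneg (Nat.cast_nonneg _) _)
  rw [Rat.cast_natCast] at h1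
  rw [h'] at h1
  have hp0 : (p : ℝ) ≠ 0 := Nat.cast_ne_zero.2 hp.ne_zero
  have h3 : (p : ℝ) ^ (-(A : ℤ)) ≤ (p : ℝ) ^ (-((E + 2 : ℕ) : ℤ)) * (p : ℝ) ^ (-(C : ℤ)) := by
    rw [← zpow_add₀ hp0]
    exact zpow_le_zpow_right₀ (by exact_mod_cast hp.one_lt.le) (by omega)
  exact absurd (lt_of_lt_of_le h1 ((mul_le_of_le_one_right
    (zpow_nonneg (Nat.cast_nonneg _) _) hz).trans h3)) (lt_irrefl _)

/-- **Siegel's values against each other**, every prime. -/
theorem siegelTotal_congr_siegelTotal {k E a a' t : ℕ} (hk : Even k) (hk2 : 2 ≤ k)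
    (hw : 4 ≤ k * finrank ℚ K) (hE : (k * finrank ℚ K).factorization p < E)
    (hka : a + E + 3 ≤ k) (ha : a + E + E + 4 ≤ a') (ht : t ≠ 0) :
    ∃ u z : ℤ, ¬(p : ℤ) ∣ u ∧
      (u : ℚ) * (staudtDen ((k + period p * (p ^ a' * t)) * finrank ℚ K) : ℚ) *
        (siegelTotal K (k + period p * (p ^ a' * t)) - siegelTotal K k) =
          (p : ℚ) ^ (a + 1) * z := by
  have hp : p.Prime := Fact.out
  obtain ⟨w₀, c, B, G, Y, U, h2, h0, hdiv, hc, hB, hG, hGq, hGW⟩ := exists_unit_any (p := p)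
  have hc0 : c ≠ 0 := fun h => by
    rw [h, mul_zero] at hc
    exact period_ne_zero (p := p) hc
  obtain ⟨g, hg0, hg⟩ := exists_siegel_form (K := K) hk hk2 hw
  obtain ⟨r, hr⟩ : ∃ r, r = siegelTotal K k := ⟨_, rfl⟩
  rw [← hr] at hg0 ⊢
  obtain ⟨v₀, d, hd, hrd⟩ := Nat.exists_eq_pow_mul_and_not_dvd r.den_ne_zero p hp.ne_one
  have hv₀ : v₀ < E + 2 := by
    by_contra hh
    exact den_siegelTotal_bound (p := p) hk hk2 hw hE
      (hr ▸ hrd ▸ dvd_mul_of_dvd_left (pow_dvd_pow p (not_lt.1 hh)) d)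
  have hfq : HasQ 1 ⇑g (PowerSeries.mk fun m =>
      if m = 0 then (r : ℂ) else (pointSum K (k - 1) m : ℂ)) := by
    convert FA.Tau.hasQ_form g using 1
    refine PowerSeries.ext fun m => ?_
    rw [PowerSeries.coeff_mk]
    split_ifs with hm
    · rw [hm, hg0]
    · rw [hg m hm]
  have hlv : IsLv p (wt K k) ⇑g := (IsLv.of_modularForm g).of_levelOne p
  obtain ⟨T, hT⟩ : ∃ T : PowerSeries ℤ,
      T = Vp p (PowerSeries.mk fun m =>
        if m = 0 then r.num else (r.den : ℤ) * (pointSum K (k - 1) m : ℤ)) := ⟨_, rfl⟩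
  have hWT : HasQ 1 (((r.den : ℤ) : ℂ) • Eis.W p (wt K k) ⇑g)
      (T.map (Int.castRingHom ℂ)) := by
    rw [W, (IsLv.of_modularForm g).inv', Int.cast_natCast, hT, PadicEulerFactor.map_Vp]
    convert (hfq.dil p).smul (r.den : ℂ) using 1
    rw [← map_smul]
    congr 1
    refine PowerSeries.ext fun m => ?_
    rw [PowerSeries.coeff_map, PowerSeries.coeff_mk, PowerSeries.coeff_smul, PowerSeries.coeff_mk,
      eq_intCast, smul_eq_mul]
    split_ifs
    · rw [← Rat.cast_intCast r.num, ← Rat.den_mul_eq_num r]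
      push_cast
      rfl
    · push_cast
      rfl
  obtain ⟨q, hq⟩ := hdiv
  have key : w₀ * (p ^ a' * (c * t)) = period p * (p ^ a' * t) := by
    rw [period, hc]
    ring
  obtain ⟨u, z, hu, h⟩ := siegelTotal_congr_form hB hG hGq hGW h2 hk hk2 hw hlv hfq hWT
    (v := v₀) (D' := (d : ℤ)) (by rw [hrd]; push_cast; rfl)
    (fun hh => hd (Int.natCast_dvd_natCast.1 hh)) hrd hd (a := a) (a' := a') (t := c * t)
    (by omega) (mul_ne_zero hc0 ht) fun m _ => by
      haveI : Finite (TracePt K m) := finite_tracePt hk hk2 hw m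
      have e' : p ^ (a + v₀) * p ^ (a' - (a + v₀)) = p ^ a' := by
        rw [← pow_add, Nat.add_sub_cancel' (by omega)]
      have e : w₀ * (p ^ a' * (c * t)) =
          (p - 1) * (p ^ (a + v₀) * (q * (p ^ (a' - (a + v₀)) * (c * t)))) := by
        rw [hq, ← e']
        ring
      rw [e, Nat.sub_add_comm (by omega : 1 ≤ k)]
      exact TotallyRealKummer.pointSum_congr (by omega)
  rw [key] at h
  exact ⟨u, z, hu, h⟩

/-- **Kummer's congruence at every prime.** -/
theorem eulerVal_congr {k E C b s : ℕ} (hk : Even k) (hk2 : 2 ≤ k) (hw : 4 ≤ k * finrank ℚ K)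
    (hE : (k * finrank ℚ K).factorization p < E) (hb : C + 3 * E + 9 ≤ b) :
    ‖(eulerVal K p (k + period p * (p ^ b * s)) : ℚ_[p]) - (eulerVal K p k : ℚ_[p])‖ ≤
      (p : ℝ) ^ (-(C : ℤ)) := by
  have hp : p.Prime := Fact.out
  rcases Nat.eq_zero_or_pos s with rfl | hs
  · rw [mul_zero, mul_zero, add_zero, sub_self, norm_zero]
    exact zpow_nonneg (Nat.cast_nonneg _) _
  obtain ⟨k', hk'⟩ : ∃ k', k' = k + period p * (p ^ b * s) := ⟨_, rfl⟩
  rw [← hk']
  have hle : k ≤ k' := hk' ▸ Nat.le_add_right _ _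
  have hev' : Even k' := hk' ▸ hk.add (even_period.mul_right _)
  have hw' : 4 ≤ k' * finrank ℚ K := hw.trans (Nat.mul_le_mul_right _ hle)
  have hE' : (k' * finrank ℚ K).factorization p < E :=
    hk' ▸ factorization_shift (by omega) hE (by omega)
  obtain ⟨a, ha⟩ : ∃ a, a = C + (E + 2) := ⟨_, rfl⟩
  obtain ⟨A, hA⟩ := siegelTotal_congr_any (K := K) (p := p) hk hk2 hw a
  obtain ⟨A', hA'⟩ := siegelTotal_congr_any (K := K) (p := p) hev' (hk2.trans hle) hw' a
  obtain ⟨N, hN⟩ : ∃ N, N = A + A' + a + E + E + 5 := ⟨_, rfl⟩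
  obtain ⟨u₁, z₁, hu₁, h₁⟩ := hA N 1 (by omega) one_ne_zero
  obtain ⟨u₂, z₂, hu₂, h₂⟩ := hA' N 1 (by omega) one_ne_zero
  rw [← period] at h₁ h₂
  obtain ⟨L, hL⟩ : ∃ L, L = k + period p * (p ^ N * 1) := ⟨_, rfl⟩
  have hL' : k' + period p * (p ^ N * 1) = L + period p * (p ^ b * s) := by
    rw [hk', hL]
    ring
  rw [← hL] at h₁
  rw [hL'] at h₂
  have hEL : (L * finrank ℚ K).factorization p < E :=
    hL ▸ factorization_shift (by omega) hE (by omega)
  have hEL' : ((L + period p * (p ^ b * s)) * finrank ℚ K).factorization p < E :=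
    factorization_shift (mul_ne_zero (by omega) finrank_pos.ne') hEL (by omega)
  have hbig : N ≤ period p * (p ^ N * 1) := (Nat.lt_pow_self hp.one_lt).le.trans
    (by rw [mul_one]; exact Nat.le_mul_of_pos_left _ (Nat.pos_of_ne_zero period_ne_zero))
  obtain ⟨u₃, z₃, hu₃, h₃⟩ := siegelTotal_congr_siegelTotal (K := K) (a := a) (a' := b) (t := s)
    (hL ▸ hk.add (even_period.mul_right _)) (by omega)
    (hw.trans (Nat.mul_le_mul_right _ (hL ▸ Nat.le_add_right _ _))) hEL (by omega) (by omega)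
    hs.ne'
  have n₁ := norm_le_of_scaled hu₁ (pow_not_dvd_staudtDen hEL) (C := C) (by omega) h₁
  have n₂ := norm_le_of_scaled hu₂ (pow_not_dvd_staudtDen hEL') (C := C) (by omega) h₂
  have n₃ := norm_le_of_scaled hu₃ (pow_not_dvd_staudtDen hEL') (C := C) (by omega) h₃
  have e : (eulerVal K p k' : ℚ_[p]) - (eulerVal K p k : ℚ_[p]) =
      ((siegelTotal K L - eulerVal K p k : ℚ) : ℚ_[p]) +
        (((siegelTotal K (L + period p * (p ^ b * s)) - siegelTotal K L : ℚ) : ℚ_[p]) +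
          -((siegelTotal K (L + period p * (p ^ b * s)) - eulerVal K p k' : ℚ) : ℚ_[p])) := by
    push_cast
    ring
  rw [e]
  exact (Padic.nonarchimedean _ _).trans
    (max_le n₁ ((Padic.nonarchimedean _ _).trans (max_le n₃ (by rwa [norm_neg]))))

/-- **The size of the values.** -/
theorem norm_eulerVal_le {k E : ℕ} (hk : Even k) (hk2 : 2 ≤ k) (hw : 4 ≤ k * finrank ℚ K)
    (hE : (k * finrank ℚ K).factorization p < E) :
    ‖(eulerVal K p k : ℚ_[p])‖ ≤ (p : ℝ) ^ ((E + 1 : ℕ) : ℤ) := by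
  have hp : p.Prime := Fact.out
  obtain ⟨A, hA⟩ := siegelTotal_congr_any (K := K) (p := p) hk hk2 hw (E + 1)
  obtain ⟨u, z, hu, h⟩ := hA (A + E) 1 (Nat.le_add_right _ _) one_ne_zero
  rw [← period] at h
  obtain ⟨L, hL⟩ : ∃ L, L = k + period p * (p ^ (A + E) * 1) := ⟨_, rfl⟩
  rw [← hL] at h
  have hEL : (L * finrank ℚ K).factorization p < E :=
    hL ▸ factorization_shift (by omega) hE (by omega)
  have hLk : k ≤ L := hL ▸ Nat.le_add_right _ _
  have n₁ := norm_le_of_scaled hu (pow_not_dvd_staudtDen hEL) (C := 0) (by omega) h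
  have hden := den_siegelTotal_bound (p := p) (hL ▸ hk.add (even_period.mul_right _))
    (hk2.trans hLk) (hw.trans (Nat.mul_le_mul_right _ hLk)) hEL
  have hp1 : (1 : ℝ) ≤ (p : ℝ) := by exact_mod_cast hp.one_lt.le
  have hp0 : (0 : ℝ) < (p : ℝ) := by linarith
  obtain ⟨v₀, d, hd, hrd⟩ :=
    Nat.exists_eq_pow_mul_and_not_dvd (siegelTotal K L).den_ne_zero p hp.ne_one
  have hv₀ : v₀ ≤ E + 1 := by
    by_contra hh
    exact hden (hrd ▸ dvd_mul_of_dvd_left (pow_dvd_pow p (show E + 2 ≤ v₀ by omega)) d)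
  have n₂ : ‖((siegelTotal K L : ℚ) : ℚ_[p])‖ ≤ (p : ℝ) ^ ((E + 1 : ℕ) : ℤ) := by
    rw [← Rat.num_div_den (siegelTotal K L), Rat.cast_div, Rat.cast_intCast, Rat.cast_natCast,
      norm_div, hrd, Nat.cast_mul, Nat.cast_pow, norm_mul, Padic.norm_p_pow,
      Padic.norm_natCast_eq_one_iff.2 (hp.coprime_iff_not_dvd.2 hd), mul_one, zpow_neg,
      div_inv_eq_mul]
    exact le_trans (mul_le_of_le_one_left (zpow_nonneg hp0.le _) (Padic.norm_int_le_one _))
      (zpow_le_zpow_right₀ hp1 (by omega))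
  rw [show (eulerVal K p k : ℚ_[p]) = (siegelTotal K L : ℚ_[p]) +
    -((siegelTotal K L - eulerVal K p k : ℚ) : ℚ_[p]) by push_cast; ring]
  refine (Padic.nonarchimedean _ _).trans (max_le n₂ ?_)
  rw [norm_neg]
  exact n₁.trans (zpow_le_zpow_right₀ hp1 (by omega))

end FA.PadicZetaFull

end
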