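import Fermat.Agent.PadicZetaFull.Congruence
import Fermat.Agent.TotallyRealKummer.Padic

/-!
# The `p`-adic zeta function at every prime

Along `k = k₀ + 4 (p - 1) x` the values without Euler factors extend to a function of `x` in `ℤ_p`,
continuous off the only possible pole `k = 0`, with `k n` times it bounded.
-/

set_option autoImplicit false
set_option linter.unusedSectionVars false
set_option linter.style.haveILetI false

noncomputable section

open NumberField Module Filter Topology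
open scoped Classical

namespace FA.PadicZetaFull

open FA.PadicEulerFactor FA.TotallyRealKummer

variable (K : Type*) [Field K] [NumberField K] [IsTotallyReal K]
variable (p : ℕ) [Fact p.Prime] (k₀ : ℕ)

/-- The weight of `x`, as a `p`-adic integer. -/
def weightAt (x : ℤ_[p]) : ℤ_[p] := (k₀ : ℤ_[p]) + (period p : ℤ_[p]) * x

/-- The exponent of index `j`. -/
def expAt (j : ℕ) : ℕ := k₀ + period p * j

/-- **The function**: the limit of the values without Euler factors. -/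
def padicZeta (x : ℤ_[p]) : ℚ_[p] :=
  limUnder atTop fun a => (eulerVal K p (expAt p k₀ (index p x a)) : ℚ_[p])

variable {K p k₀}

theorem weightAt_natCast (j : ℕ) : weightAt p k₀ (j : ℤ_[p]) = (expAt p k₀ j : ℤ_[p]) := by
  rw [weightAt, expAt]
  push_cast
  rfl

/-- A bound for the power of `p` near a point that is not the pole. -/
def Good (E : ℕ) (x : ℤ_[p]) (n : ℕ) : Prop :=
  (p : ℝ) ^ (-(E : ℤ)) < ‖weightAt p k₀ x * (n : ℤ_[p])‖

theorem exists_good {x : ℤ_[p]} (hx : weightAt p k₀ x ≠ 0) {n : ℕ} (hn : n ≠ 0) :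
    ∃ E, Good (k₀ := k₀) E x n :=
  PadicInt.exists_pow_neg_lt p
    (norm_pos_iff.2 (mul_ne_zero hx (Nat.cast_ne_zero.2 hn)))

theorem Good.of_near {E : ℕ} {x y : ℤ_[p]} {n : ℕ} (h : Good (k₀ := k₀) E x n)
    (hxy : ‖x - y‖ ≤ (p : ℝ) ^ (-(E : ℤ))) : Good (k₀ := k₀) E y n := by
  unfold Good
  by_contra hh
  refine absurd h (not_lt.2 ?_)
  rw [show weightAt p k₀ x * (n : ℤ_[p]) = weightAt p k₀ y * (n : ℤ_[p]) +
    (period p : ℤ_[p]) * (n : ℤ_[p]) * (x - y) by rw [weightAt, weightAt]; ring]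
  refine (PadicInt.nonarchimedean _ _).trans (max_le (not_lt.1 hh) ?_)
  rw [norm_mul]
  exact (mul_le_of_le_one_left (norm_nonneg _) (PadicInt.norm_le_one _)).trans hxy

theorem Good.factorization_lt {E k n : ℕ} {x : ℤ_[p]} (h : Good (k₀ := k₀) E x n)
    (hx : weightAt p k₀ x = (k : ℤ_[p])) (hk : k * n ≠ 0) : (k * n).factorization p < E := by
  by_contra hh
  have hd := ((Fact.out : p.Prime).pow_dvd_iff_le_factorization hk).2 (not_lt.1 hh)
  refine absurd h (not_lt.2 ?_)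
  rw [hx, PadicInt.norm_le_pow_iff_mem_span_pow, Ideal.mem_span_singleton, ← Nat.cast_mul,
    ← Nat.cast_pow]
  exact Nat.cast_dvd_cast hd

/-- Two exponents of the class near each other. -/
theorem norm_eulerVal_sub {E C b k k' : ℕ} {i i' : ℤ} (hk₀ : Even k₀) (hk2 : 2 ≤ k)
    (hw : 4 ≤ k * finrank ℚ K) (hk2' : 2 ≤ k') (hw' : 4 ≤ k' * finrank ℚ K)
    (hi : (k : ℤ) = k₀ + period p * i) (hi' : (k' : ℤ) = k₀ + period p * i')
    (hE : Good (k₀ := k₀) E (i : ℤ_[p]) (finrank ℚ K))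
    (hb : C + 3 * E + 9 ≤ b) (hnear : ‖(i : ℤ_[p]) - (i' : ℤ_[p])‖ ≤ (p : ℝ) ^ (-(b : ℤ))) :
    ‖(eulerVal K p k : ℚ_[p]) - (eulerVal K p k' : ℚ_[p])‖ ≤ (p : ℝ) ^ (-(C : ℤ)) := by
  wlog hle : k ≤ k' generalizing k k' i i'
  · rw [norm_sub_rev]
    rw [norm_sub_rev] at hnear
    refine this hk2' hw' hk2 hw hi' hi (hE.of_near ?_) hnear (le_of_lt (not_le.1 hle))
    rw [norm_sub_rev]
    exact hnear.trans (pow_neg_le (by omega))
  have hev : Even k := by
    have h1 : Even ((k₀ : ℤ) + (period p : ℤ) * i) :=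
      ((Int.even_coe_nat _).2 hk₀).add (((Int.even_coe_nat _).2 even_period).mul_right _)
    rwa [← hi, Int.even_coe_nat] at h1
  rw [← Int.cast_sub, PadicInt.norm_le_pow_iff_mem_span_pow, Ideal.mem_span_singleton,
    PadicInt.pow_p_dvd_int_iff, dvd_sub_comm] at hnear
  obtain ⟨s, hs⟩ := hnear
  have hM : (0 : ℤ) < period p := Int.natCast_pos.2 (Nat.pos_of_ne_zero period_ne_zero)
  have hkk : (k' : ℤ) = k + period p * ((p : ℤ) ^ b * s) := by rw [hi, hi', ← hs]; ring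
  obtain ⟨t, rfl⟩ : ∃ t : ℕ, s = t := ⟨s.toNat, (Int.toNat_of_nonneg (by
    by_contra hneg
    have h1 : (p : ℤ) ^ b * s < 0 := mul_neg_of_pos_of_neg
      (pow_pos (Int.natCast_pos.2 (Fact.out : p.Prime).pos) b) (not_le.1 hneg)
    have := mul_neg_of_pos_of_neg hM h1
    omega)).symm⟩
  obtain rfl : k' = k + period p * (p ^ b * t) := by exact_mod_cast hkk
  rw [norm_sub_rev]
  refine eulerVal_congr hev hk2 hw (hE.factorization_lt ?_ (by omega)) hb
  rw [weightAt]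
  have := congrArg (Int.cast : ℤ → ℤ_[p]) hi
  push_cast at this
  exact this.symm

theorem expAt_spec (x : ℤ_[p]) {a : ℕ} (ha : 4 ≤ a) :
    4 ≤ expAt p k₀ (index p x a) ∧ 2 ≤ expAt p k₀ (index p x a) ∧
      4 ≤ expAt p k₀ (index p x a) * finrank ℚ K := by
  have h : a + 2 ≤ expAt p k₀ (index p x a) := (le_index x a).trans
    (le_trans (Nat.le_mul_of_pos_left _ (Nat.pos_of_ne_zero period_ne_zero))
      (Nat.le_add_left _ _))
  exact ⟨by omega, by omega,
    le_trans (show 4 ≤ expAt p k₀ (index p x a) by omega) (Nat.le_mul_of_pos_right _ finrank_pos)⟩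

theorem expAt_int (j : ℕ) : ((expAt p k₀ j : ℕ) : ℤ) = k₀ + period p * (j : ℤ) := by
  rw [expAt]
  push_cast
  rfl

/-- Near a good point the values are close to each other. -/
theorem norm_index_sub {E C b : ℕ} {x y : ℤ_[p]} (hk₀ : Even k₀)
    (hE : Good (k₀ := k₀) E x (finrank ℚ K)) (hb : C + 3 * E + 9 ≤ b) {a a' : ℕ} (ha : b ≤ a)
    (ha' : b ≤ a') (hxy : ‖x - y‖ ≤ (p : ℝ) ^ (-(b : ℤ))) :
    ‖(eulerVal K p (expAt p k₀ (index p x a)) : ℚ_[p]) -
      (eulerVal K p (expAt p k₀ (index p y a')) : ℚ_[p])‖ ≤ (p : ℝ) ^ (-(C : ℤ)) := by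
  obtain ⟨-, h1, h2⟩ := expAt_spec (K := K) (k₀ := k₀) x (a := a) (by omega)
  obtain ⟨-, h3, h4⟩ := expAt_spec (K := K) (k₀ := k₀) y (a := a') (by omega)
  refine norm_eulerVal_sub hk₀ h1 h2 h3 h4 (expAt_int _) (expAt_int _) ?_ hb ?_
  · rw [Int.cast_natCast]
    exact hE.of_near ((norm_index x a).trans (pow_neg_le (by omega)))
  · rw [Int.cast_natCast, Int.cast_natCast]
    refine norm_sub_le_of (y := x) ?_ (norm_sub_le_of hxy
      ((norm_index y a').trans (pow_neg_le ha')))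
    rw [norm_sub_rev]
    exact (norm_index x a).trans (pow_neg_le ha)

theorem tendsto_padicZeta (hk₀ : Even k₀) {x : ℤ_[p]} (hx : weightAt p k₀ x ≠ 0) :
    Tendsto (fun a => (eulerVal K p (expAt p k₀ (index p x a)) : ℚ_[p])) atTop
      (𝓝 (padicZeta K p k₀ x)) := by
  suffices hc : CauchySeq fun a => (eulerVal K p (expAt p k₀ (index p x a)) : ℚ_[p]) from
    hc.tendsto_limUnder
  obtain ⟨E, hE⟩ := exists_good (k₀ := k₀) hx (finrank_pos (R := ℚ) (M := K)).ne'
  refine Metric.cauchySeq_iff'.2 fun ε hε => ?_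
  obtain ⟨C, hC⟩ := PadicInt.exists_pow_neg_lt p hε
  refine ⟨C + 3 * E + 9, fun a ha => ?_⟩
  rw [dist_eq_norm]
  refine lt_of_le_of_lt (norm_index_sub hk₀ hE le_rfl ha le_rfl ?_) hC
  rw [sub_self, norm_zero]
  exact zpow_nonneg (Nat.cast_nonneg _) _

/-- **The values at the integers of the class.** -/
theorem padicZeta_intCast (hk₀ : Even k₀) {k : ℕ} {i : ℤ} (hk2 : 2 ≤ k)
    (hw : 4 ≤ k * finrank ℚ K) (hi : (k : ℤ) = k₀ + period p * i) :
    padicZeta K p k₀ (i : ℤ_[p]) = (eulerVal K p k : ℚ_[p]) := by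
  have hwt : weightAt p k₀ (i : ℤ_[p]) = (k : ℤ_[p]) := by
    have := congrArg (Int.cast : ℤ → ℤ_[p]) hi
    push_cast at this
    exact this.symm
  have hne : weightAt p k₀ (i : ℤ_[p]) ≠ 0 := hwt ▸ Nat.cast_ne_zero.2 (by omega)
  obtain ⟨E, hE⟩ := exists_good (k₀ := k₀) hne (finrank_pos (R := ℚ) (M := K)).ne'
  refine tendsto_nhds_unique (tendsto_padicZeta (K := K) hk₀ hne) (Metric.tendsto_atTop.2 ?_)
  intro ε hε
  obtain ⟨C, hC⟩ := PadicInt.exists_pow_neg_lt p hε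
  refine ⟨C + 3 * E + 9, fun a ha => ?_⟩
  obtain ⟨-, h1, h2⟩ := expAt_spec (K := K) (k₀ := k₀) (i : ℤ_[p]) (a := a) (by omega)
  rw [dist_eq_norm]
  refine lt_of_le_of_lt (norm_eulerVal_sub (b := C + 3 * E + 9) hk₀ h1 h2 hk2 hw (expAt_int _) hi
    ?_ le_rfl ?_) hC
  · rw [Int.cast_natCast]
    exact hE.of_near ((norm_index _ a).trans (pow_neg_le (by omega)))
  · rw [Int.cast_natCast, norm_sub_rev]
    exact (norm_index _ a).trans (pow_neg_le ha)

/-- **Continuity off the pole.** -/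
theorem continuousAt_padicZeta (hk₀ : Even k₀) {x : ℤ_[p]} (hx : weightAt p k₀ x ≠ 0) :
    ContinuousAt (padicZeta K p k₀) x := by
  obtain ⟨E, hE⟩ := exists_good (k₀ := k₀) hx (finrank_pos (R := ℚ) (M := K)).ne'
  refine Metric.continuousAt_iff.2 fun ε hε => ?_
  obtain ⟨C, hC⟩ := PadicInt.exists_pow_neg_lt p hε
  refine ⟨(p : ℝ) ^ (-((C + 3 * E + 9 : ℕ) : ℤ)),
    zpow_pos (by exact_mod_cast (Fact.out : p.Prime).pos) _, fun {y} hy => ?_⟩
  rw [dist_eq_norm] at hy ⊢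
  have hy' : ‖x - y‖ ≤ (p : ℝ) ^ (-((C + 3 * E + 9 : ℕ) : ℤ)) := by
    rw [norm_sub_rev]
    exact hy.le
  have hgy : weightAt p k₀ y ≠ 0 := fun h0 => by
    have h := hE.of_near (hy'.trans (pow_neg_le (by omega)))
    rw [Good, h0, zero_mul, norm_zero] at h
    exact absurd h (not_lt.2 (zpow_nonneg (Nat.cast_nonneg _) _))
  refine lt_of_le_of_lt ?_ hC
  rw [norm_sub_rev]
  refine le_of_tendsto (((tendsto_padicZeta (K := K) hk₀ hx).sub
    (tendsto_padicZeta hk₀ hgy)).norm) ?_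
  filter_upwards [eventually_ge_atTop (C + 3 * E + 9)] with a ha
  exact norm_index_sub hk₀ hE le_rfl ha ha hy'

/-- **Continuity everywhere** in a class without pole. -/
theorem continuous_padicZeta (hk₀ : Even k₀) (h : ∀ x : ℤ_[p], weightAt p k₀ x ≠ 0) :
    Continuous (padicZeta K p k₀) :=
  continuous_iff_continuousAt.2 fun x => continuousAt_padicZeta hk₀ (h x)

/-- A class without pole: a smaller power of `p` divides `k₀` than `4 (p - 1)`. -/
theorem weightAt_ne_zero {v : ℕ} (hv : ¬p ^ v ∣ k₀) (hper : p ^ v ∣ period p) (x : ℤ_[p]) :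
    weightAt p k₀ x ≠ 0 := fun h => hv (by
  have h1 : (p : ℤ_[p]) ^ v ∣ (k₀ : ℤ_[p]) := by
    rw [eq_neg_of_add_eq_zero_left h, dvd_neg]
    exact dvd_mul_of_dvd_left (by rw [← Nat.cast_pow]; exact Nat.cast_dvd_cast hper) _
  rw [← Int.cast_natCast (R := ℤ_[p]) k₀, PadicInt.pow_p_dvd_int_iff] at h1
  exact_mod_cast h1)

/-- **`k n` times the function is bounded.** -/
theorem norm_weight_mul_le (hk₀ : Even k₀) {x : ℤ_[p]} (hx : weightAt p k₀ x ≠ 0) :
    ‖((weightAt p k₀ x * (finrank ℚ K : ℤ_[p]) : ℤ_[p]) : ℚ_[p]) * padicZeta K p k₀ x‖ ≤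
      (p : ℝ) ^ 2 := by
  refine le_of_tendsto' (((((continuous_subtype_val.tendsto _).comp
    (((tendsto_index (p := p) x).1.const_mul (period p : ℤ_[p])).const_add
      (k₀ : ℤ_[p]) |>.mul_const (finrank ℚ K : ℤ_[p])))).mul
        (tendsto_padicZeta (K := K) hk₀ hx)).norm.comp (tendsto_add_atTop_nat 4)) fun a => ?_
  simp only [Function.comp_apply]
  obtain ⟨-, h1, h2⟩ := expAt_spec (K := K) (k₀ := k₀) x (a := a + 4) (by omega)
  obtain ⟨w, hw⟩ : ∃ w, w = expAt p k₀ (index p x (a + 4)) := ⟨_, rfl⟩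
  rw [← hw] at h1 h2 ⊢
  have hev : Even w := hw ▸ hk₀.add (even_period.mul_right _)
  have hb := norm_eulerVal_le (K := K) (p := p) hev h1 h2
    (E := (w * finrank ℚ K).factorization p + 1) (Nat.lt_succ_self _)
  rw [show (k₀ : ℤ_[p]) + (period p : ℤ_[p]) * (index p x (a + 4) : ℤ_[p]) = (w : ℤ_[p]) by
    rw [hw, ← weightAt_natCast, weightAt]]
  rw [norm_mul, ← Nat.cast_mul]
  have hp0 : (0 : ℝ) < (p : ℝ) := by exact_mod_cast (Fact.out : p.Prime).pos
  have hle : ‖(((w * finrank ℚ K : ℕ) : ℤ_[p]) : ℚ_[p])‖ ≤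
      (p : ℝ) ^ (-(((w * finrank ℚ K).factorization p : ℕ) : ℤ)) := by
    rw [PadicInt.coe_natCast, ← Int.cast_natCast, Padic.norm_int_le_pow_iff_dvd]
    exact_mod_cast Nat.ordProj_dvd _ _
  refine (mul_le_mul hle hb (norm_nonneg _) (zpow_nonneg hp0.le _)).trans (le_of_eq ?_)
  rw [← zpow_add₀ hp0.ne', ← zpow_natCast]
  congr 1
  push_cast
  ring

/-- **Uniqueness off the pole.** -/
theorem padicZeta_unique (hk₀ : Even k₀) {G : ℤ_[p] → ℚ_[p]} {x : ℤ_[p]}
    (hx : weightAt p k₀ x ≠ 0) (hG : ContinuousAt G x)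
    (hval : ∀ j : ℕ, 4 ≤ expAt p k₀ j → G j = (eulerVal K p (expAt p k₀ j) : ℚ_[p])) :
    G x = padicZeta K p k₀ x := by
  refine tendsto_nhds_unique (hG.tendsto.comp (tendsto_index (p := p) x).1)
    ((tendsto_padicZeta (K := K) hk₀ hx).congr' ?_)
  filter_upwards [eventually_ge_atTop 4] with a ha
  exact (hval _ (expAt_spec (K := K) x ha).1).symm

/-- **Agreement with the function of a good class.** -/
theorem padicZeta_eq_zeta (h : GoodClass K p k₀) {x : ℤ_[p]} (hx : weightAt p k₀ x ≠ 0) :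
    padicZeta K p k₀ x = ((h.zeta (4 * x) : ℤ_[p]) : ℚ_[p]) := by
  have hz : Continuous h.zeta := by
    refine continuous_iff_continuousAt.2 fun y => Metric.continuousAt_iff.2 fun ε hε =>
      ⟨ε, hε, fun {z} hzy => ?_⟩
    rw [dist_eq_norm] at hzy ⊢
    refine lt_of_le_of_lt (h.norm_zeta_sub_zeta z y) (lt_of_le_of_lt ?_ hzy)
    exact div_le_self (norm_nonneg _) (by exact_mod_cast (Fact.out : p.Prime).one_lt.le)
  obtain ⟨g, hg⟩ : ∃ g : ℤ_[p] → ℤ_[p], ∀ y, g y = h.zeta y := ⟨h.zeta, fun _ => rfl⟩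
  have hgc : Continuous g := by rwa [show g = h.zeta from funext hg]
  have h4 : Continuous fun y : ℤ_[p] => (4 : ℤ_[p]) * y := continuous_const.mul continuous_id'
  have hval : Continuous fun y : ℤ_[p] => ((g (4 * y) : ℤ_[p]) : ℚ_[p]) :=
    continuous_subtype_val.comp (hgc.comp h4)
  rw [← hg]
  refine (padicZeta_unique (K := K) (G := fun y => ((g (4 * y) : ℤ_[p]) : ℚ_[p])) h.even hx
    hval.continuousAt fun j hj => ?_).symm
  simp only [hg]
  have := zeta_interpolation h (k := expAt p k₀ j) (i := ((4 * j : ℕ) : ℤ)) (by omega)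
    (hj.trans (Nat.le_mul_of_pos_right _ finrank_pos))
    (by rw [expAt, period]; push_cast; ring)
  push_cast at this
  exact this

end FA.PadicZetaFull

end
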